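import Mathlib
import Fermat.Agent.S24.FFOne

/-!
# S24, part (A): the module of differentials of a function field in one variable
Owner: helper84.

For `x` transcendental over `K` with `F / K(x)` finite (char. 0): `D x ≠ 0` and `D x` spans `Ω[F⁄K]`.
-/

set_option autoImplicit false

noncomputable section

namespace Fermat.Agent.S24.Diff

open IntermediateField Polynomial KaehlerDifferential TensorProduct
open scoped IntermediateField.algebraAdjoinAdjoin

variable {K F : Type*} [Field K] [Field F] [Algebra K F]

section Adjoin

variable (x : F) (hx : Transcendental K x)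

/-- the generator of `K[x]`. -/
def gen : Algebra.adjoin K {x} := ⟨x, Algebra.self_mem_adjoin_singleton K x⟩

/-- the derivation `d/dx` on `K[x]`. -/
def ddx : Derivation K (Algebra.adjoin K {x}) (Algebra.adjoin K {x}) :=
  Derivation.mk'
    ((Polynomial.algEquivOfTranscendental K x hx).toLinearMap ∘ₗ
      (Polynomial.derivative' (R := K)).toLinearMap ∘ₗ
      (Polynomial.algEquivOfTranscendental K x hx).symm.toLinearMap)
    (by
      intro a b
      simp only [LinearMap.coe_comp, Function.comp_apply, AlgEquiv.toLinearMap_apply, map_mul,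
        Derivation.coeFn_coe, Derivation.leibniz, map_add, smul_eq_mul, AlgEquiv.apply_symm_apply])

theorem algEquiv_X : Polynomial.algEquivOfTranscendental K x hx X = gen (K := K) x := by
  apply Subtype.ext
  simp [gen]

theorem ddx_gen : ddx x hx (gen x) = 1 := by
  have h : (Polynomial.algEquivOfTranscendental K x hx).symm (gen x) = X := by
    rw [← algEquiv_X x hx, AlgEquiv.symm_apply_apply]
  simp [ddx, h]

include hx in
theorem exists_aeval_gen (a : Algebra.adjoin K {x}) : ∃ f : K[X], a = aeval (gen (K := K) x) f := by
  refine ⟨(Polynomial.algEquivOfTranscendental K x hx).symm a, ?_⟩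
  have h1 : ∀ f : K[X], Polynomial.algEquivOfTranscendental K x hx f = aeval (gen (K := K) x) f := by
    intro f
    have : (Polynomial.algEquivOfTranscendental K x hx).toAlgHom = aeval (gen (K := K) x) := by
      apply Polynomial.algHom_ext
      simpa using algEquiv_X x hx
    exact DFunLike.congr_fun this f
  rw [← h1, AlgEquiv.apply_symm_apply]

include hx in
theorem span_D_gen :
    Submodule.span (Algebra.adjoin K {x}) {D K (Algebra.adjoin K {x}) (gen x)} = ⊤ := by
  rw [eq_top_iff, ← KaehlerDifferential.span_range_derivation, Submodule.span_le]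
  rintro _ ⟨a, rfl⟩
  obtain ⟨f, rfl⟩ := exists_aeval_gen x hx a
  rw [Derivation.map_aeval]
  exact Submodule.smul_mem _ _ (Submodule.subset_span rfl)

end Adjoin

section Main

variable [CharZero K] (x : F) (hx : Transcendental K x) [FiniteDimensional K⟮x⟯ F]

theorem formallyEtale_adjoin : Algebra.FormallyEtale (Algebra.adjoin K {x}) F := by
  have : CharZero K⟮x⟯ := charZero_of_injective_algebraMap (algebraMap K K⟮x⟯).injective
  have h1 : Algebra.FormallyEtale (Algebra.adjoin K {x}) K⟮x⟯ :=
    Algebra.FormallyEtale.of_isLocalization (nonZeroDivisors (Algebra.adjoin K {x}))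
  have h2 : Algebra.FormallyEtale K⟮x⟯ F := Algebra.FormallyEtale.of_isSeparable K⟮x⟯ F
  exact Algebra.FormallyEtale.comp (Algebra.adjoin K {x}) K⟮x⟯ F

include hx in
theorem D_ne_zero : D K F x ≠ 0 := by
  intro h0
  have := formallyEtale_adjoin (K := K) x
  have h1 := KaehlerDifferential.tensorKaehlerEquivOfFormallyEtale_symm_D_algebraMap
    K (Algebra.adjoin K {x}) F (gen x)
  have h2 : algebraMap (Algebra.adjoin K {x}) F (gen x) = x := rfl
  rw [h2, h0, map_zero] at h1
  -- apply `id ⊗ (lift of d/dx)`
  have h3 := congrArg (LinearMap.baseChange F (ddx x hx).liftKaehlerDifferential) h1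
  rw [map_zero, LinearMap.baseChange_tmul, Derivation.liftKaehlerDifferential_comp_D,
    ddx_gen] at h3
  have h4 := congrArg (TensorProduct.rid (Algebra.adjoin K {x}) F) h3
  simp at h4

include hx in
theorem span_D : Submodule.span F {D K F x} = ⊤ := by
  have := formallyEtale_adjoin (K := K) x
  rw [eq_top_iff]
  intro ω _
  obtain ⟨z, rfl⟩ := (KaehlerDifferential.tensorKaehlerEquivOfFormallyEtale
    K (Algebra.adjoin K {x}) F).surjective ω
  have hgen : KaehlerDifferential.tensorKaehlerEquivOfFormallyEtale K (Algebra.adjoin K {x}) F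
      (1 ⊗ₜ D K (Algebra.adjoin K {x}) (gen x)) = D K F x := by
    rw [← KaehlerDifferential.tensorKaehlerEquivOfFormallyEtale_symm_D_algebraMap,
      LinearEquiv.apply_symm_apply]
    rfl
  induction z using TensorProduct.induction_on with
  | zero => simp
  | add a b ha hb => rw [map_add]; exact Submodule.add_mem _ (ha trivial) (hb trivial)
  | tmul f η =>
    have hη : η ∈ Submodule.span (Algebra.adjoin K {x}) {D K (Algebra.adjoin K {x}) (gen x)} := by
      rw [span_D_gen x hx]; trivial
    obtain ⟨a, rfl⟩ := Submodule.mem_span_singleton.mp hη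
    have h1 : f ⊗ₜ[Algebra.adjoin K {x}] (a • D K (Algebra.adjoin K {x}) (gen x))
        = (f * (a : F)) • ((1 : F) ⊗ₜ[Algebra.adjoin K {x}] D K (Algebra.adjoin K {x}) (gen x)) := by
      rw [TensorProduct.tmul_smul, TensorProduct.smul_tmul', TensorProduct.smul_tmul',
        smul_eq_mul, mul_one, Algebra.smul_def, mul_comm]
      rfl
    rw [h1, map_smul, hgen]
    exact Submodule.smul_mem _ _ (Submodule.subset_span rfl)

end Main

end Fermat.Agent.S24.Diff
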