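import Mathlib
import Fermat.Prelude.Def_AlgebraicCurve_CanonicalDivisor
import Fermat.Agent.S24.FFSum
import Fermat.Agent.S24.Diff.Kaehler

/-!
# S24, part (A): local behaviour of differentials at a place
Owner: helper84.
-/

set_option autoImplicit false
set_option linter.style.haveILetI false

noncomputable section

namespace Fermat.Agent.S24.Diff

open AlgebraicCurve IsDedekindDomain IntermediateField Polynomial KaehlerDifferential
open Fermat.Agent.S24.FF
open scoped IntermediateField.algebraAdjoinAdjoin

variable {K F : Type*} [Field K] [Field F] [Algebra K F]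

theorem essFiniteType_of_eq {O O' : ValuationSubring F} (h : O' = O)
    (hK : ∀ a : K, algebraMap K F a ∈ O) (hK' : ∀ a : K, algebraMap K F a ∈ O')
    (H : @Algebra.EssFiniteType K O' _ _ ((algebraMap K F).codRestrict O'.toSubring hK').toAlgebra) :
    @Algebra.EssFiniteType K O _ _ ((algebraMap K F).codRestrict O.toSubring hK).toAlgebra := by
  subst h
  exact H

theorem transcendental_of_ord_ne_zero [IsAlgClosed K] (v : Place K F) {t : F} (ht : v.ord t ≠ 0) :
    Transcendental K t := by
  apply transcendental_of_forall_ne
  rintro c rfl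
  exact ht (ord_algebraMap v c)

variable [IsAlgClosed K] [CharZero K] [IsFF1 K F]

theorem essFiniteType_place (v : Place K F) : Algebra.EssFiniteType K v.toValuationSubring := by
  obtain ⟨t, ht⟩ := exists_ord_eq_one v
  have httr : Transcendental K t := transcendental_of_ord_ne_zero v (by omega)
  haveI : FiniteDimensional K⟮t⟯ F := IsFF1.finite t httr
  haveI := isPrincipalIdealRing_adjoin t httr
  haveI : CharZero K⟮t⟯ := charZero_of_injective_algebraMap (algebraMap K K⟮t⟯).injective
  haveI : IsDedekindDomain (integralClosure (Algebra.adjoin K {t}) F) :=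
    integralClosure.isDedekindDomain (Algebra.adjoin K {t}) K⟮t⟯ F
  haveI : IsFractionRing (integralClosure (Algebra.adjoin K {t}) F) F :=
    integralClosure.isFractionRing_of_finite_extension K⟮t⟯ F
  haveI : Module.Finite (Algebra.adjoin K {t}) (integralClosure (Algebra.adjoin K {t}) F) :=
    IsIntegralClosure.finite (Algebra.adjoin K {t}) K⟮t⟯ F _
  have hB : ∀ b : integralClosure (Algebra.adjoin K {t}) F,
      algebraMap (integralClosure (Algebra.adjoin K {t}) F) F b ∈ v.toValuationSubring :=
    fun b => mem_of_isIntegral v (Algebra.adjoin K {t}) (adjoin_le_of_ord_nonneg v (by omega)) b.2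
  let w := primeOfPlace v hB
  have hw : Place.ofHeightOneSpectrum (K := K) w = v := ofHeightOneSpectrum_primeOfPlace v hB
  have hO : HeightOneSpectrum.valuationSubringAtPrime F w = v.toValuationSubring := by
    rw [HeightOneSpectrum.valuationSubringAtPrime_eq_valuationSubring, ← hw]
    rfl
  have hK' : ∀ a : K, algebraMap K F a ∈ HeightOneSpectrum.valuationSubringAtPrime F w := by
    intro a
    rw [hO]
    exact v.algebraMap_mem' a
  refine essFiniteType_of_eq hO v.algebraMap_mem' hK' ?_
  letI : Algebra K (HeightOneSpectrum.valuationSubringAtPrime F w) :=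
    ((algebraMap K F).codRestrict (HeightOneSpectrum.valuationSubringAtPrime F w).toSubring
      hK').toAlgebra
  haveI : IsScalarTower K (integralClosure (Algebra.adjoin K {t}) F)
      (HeightOneSpectrum.valuationSubringAtPrime F w) :=
    IsScalarTower.of_algebraMap_eq (fun a => Subtype.ext rfl)
  haveI : Algebra.FiniteType K (Algebra.adjoin K {t}) :=
    (Subalgebra.fg_iff_finiteType _).mp (by
      have := Subalgebra.fg_adjoin_finset (R := K) ({t} : Finset F)
      simpa using this)
  haveI : Algebra.FiniteType K (integralClosure (Algebra.adjoin K {t}) F) :=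
    Algebra.FiniteType.trans (S := Algebra.adjoin K {t}) inferInstance inferInstance
  haveI : Algebra.EssFiniteType (integralClosure (Algebra.adjoin K {t}) F)
      (HeightOneSpectrum.valuationSubringAtPrime F w) :=
    Algebra.EssFiniteType.of_isLocalization _ w.asIdeal.primeCompl
  exact Algebra.EssFiniteType.comp K (integralClosure (Algebra.adjoin K {t}) F)
    (HeightOneSpectrum.valuationSubringAtPrime F w)

omit [CharZero K] in
/-- every element of `O_v` is a constant plus a multiple of the uniformizer. -/
theorem exists_eq_const_add_mul (v : Place K F) {π : v.toValuationSubring} (hπ : Irreducible π)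
    (u : v.toValuationSubring) :
    ∃ (c : K) (u' : v.toValuationSubring), u = algebraMap K v.toValuationSubring c + π * u' := by
  obtain ⟨c, hc⟩ := exists_const_of_ord_nonneg v (ord_nonneg_of_mem v u.2)
  rcases hc with hc | hc
  · exact ⟨c, 0, by rw [mul_zero, add_zero]; exact Subtype.ext hc⟩
  · have hmem : u - algebraMap K v.toValuationSubring c ∈
        IsLocalRing.maximalIdeal v.toValuationSubring := by
      rw [IsLocalRing.mem_maximalIdeal, mem_nonunits_iff]
      intro hu
      have h0 := v.ord_coe_unit hu.unit
      rw [IsUnit.unit_spec] at h0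
      have h1 : ((u - algebraMap K v.toValuationSubring c : v.toValuationSubring) : F)
          = (u : F) - algebraMap K F c := rfl
      rw [h1] at h0
      omega
    rw [hπ.maximalIdeal_eq, Ideal.mem_span_singleton'] at hmem
    obtain ⟨u', hu'⟩ := hmem
    exact ⟨c, u', by rw [mul_comm, hu']; ring⟩

theorem span_D_irreducible (v : Place K F) {π : v.toValuationSubring} (hπ : Irreducible π) :
    Submodule.span v.toValuationSubring {D K v.toValuationSubring π} = ⊤ := by
  haveI := essFiniteType_place v
  rw [eq_top_iff]
  apply Submodule.le_of_le_smul_of_le_jacobson_bot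
    (I := IsLocalRing.maximalIdeal v.toValuationSubring) Module.Finite.fg_top
    (IsLocalRing.maximalIdeal_le_jacobson _)
  rw [← KaehlerDifferential.span_range_derivation, Submodule.span_le,
    KaehlerDifferential.span_range_derivation]
  rintro _ ⟨u, rfl⟩
  obtain ⟨c, u', rfl⟩ := exists_eq_const_add_mul v hπ u
  rw [map_add, Derivation.map_algebraMap, zero_add, Derivation.leibniz, add_comm]
  refine Submodule.add_mem_sup (Submodule.smul_mem _ _ (Submodule.subset_span rfl)) ?_
  refine Submodule.smul_mem_smul ?_ trivial
  rw [hπ.maximalIdeal_eq]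
  exact Ideal.mem_span_singleton_self π

/-- `d/dπ` preserves `O_v`. -/
theorem exists_D_eq_smul (v : Place K F) {π : v.toValuationSubring} (hπ : Irreducible π)
    (u : v.toValuationSubring) :
    ∃ g : v.toValuationSubring, D K F (u : F) = (g : F) • D K F (π : F) := by
  have hu : D K v.toValuationSubring u ∈
      Submodule.span v.toValuationSubring {D K v.toValuationSubring π} := by
    rw [span_D_irreducible v hπ]; trivial
  obtain ⟨g, hg⟩ := Submodule.mem_span_singleton.mp hu
  refine ⟨g, ?_⟩
  have h1 := congrArg (KaehlerDifferential.map K K v.toValuationSubring F) hg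
  rw [map_smul, KaehlerDifferential.map_D, KaehlerDifferential.map_D] at h1
  exact h1.symm

theorem exists_D_eq_smul_of_ord_ne_zero (v : Place K F) {π : v.toValuationSubring}
    (hπ : Irreducible π) {y : F} (hy : v.ord y ≠ 0) :
    ∃ f : F, D K F y = f • D K F (π : F) ∧ f ≠ 0 ∧ v.ord f = v.ord y - 1 := by
  have hy0 : y ≠ 0 := ne_zero_of_ord_ne_zero v hy
  obtain ⟨u, hu⟩ := v.exists_unit_mul_zpow hy0 hπ
  obtain ⟨g, hg⟩ := exists_D_eq_smul v hπ (u : v.toValuationSubring)
  set m : ℤ := v.ord y with hm
  have hπ0 : (π : F) ≠ 0 := by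
    simpa [ne_eq, ZeroMemClass.coe_eq_zero] using hπ.ne_zero
  have hu0 : ((u : v.toValuationSubring) : F) ≠ 0 := by
    simp [ne_eq, ZeroMemClass.coe_eq_zero]
  have hm0 : algebraMap K F (m : K) ≠ 0 := by
    rw [_root_.map_ne_zero]
    exact Int.cast_ne_zero.mpr hy
  set a : F := algebraMap K F (m : K) * ((u : v.toValuationSubring) : F) * (π : F) ^ (m - 1)
    with ha
  set b : F := (π : F) ^ m * (g : F) with hb
  have ha0 : a ≠ 0 := mul_ne_zero (mul_ne_zero hm0 hu0) (zpow_ne_zero _ hπ0)
  have horda : v.ord a = m - 1 := by
    rw [ha, v.ord_mul (mul_ne_zero hm0 hu0) (zpow_ne_zero _ hπ0), v.ord_mul hm0 hu0,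
      ord_algebraMap, v.ord_coe_unit, v.ord_zpow, v.ord_coe_irreducible hπ]
    ring
  have hD : D K F y = (a + b) • D K F (π : F) := by
    conv_lhs => rw [hu]
    rw [Derivation.leibniz, Derivation.leibniz_zpow, hg, add_smul, ha, hb]
    congr 1
    · rw [← Int.cast_smul_eq_zsmul F, smul_smul, smul_smul, map_intCast]
      congr 1
      ring
    · rw [smul_smul]
  refine ⟨a + b, hD, ?_, ?_⟩
  · rcases eq_or_ne (g : F) 0 with hg0 | hg0
    · rw [hb, hg0, mul_zero, add_zero]; exact ha0
    · intro h0
      have hb' : b = -a := by linear_combination h0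
      have h1 : v.ord b = m + v.ord (g : F) := by
        rw [hb, v.ord_mul (zpow_ne_zero _ hπ0) hg0, v.ord_zpow, v.ord_coe_irreducible hπ]; ring
      have h2 := ord_nonneg_of_mem v g.2
      rw [hb', ord_neg, horda] at h1
      omega
  · rcases eq_or_ne (g : F) 0 with hg0 | hg0
    · rw [hb, hg0, mul_zero, add_zero]; exact horda
    · rw [ord_add_eq_of_lt v ha0, horda]
      have h1 : v.ord b = m + v.ord (g : F) := by
        rw [hb, v.ord_mul (zpow_ne_zero _ hπ0) hg0, v.ord_zpow, v.ord_coe_irreducible hπ]; ring
      have h2 := ord_nonneg_of_mem v g.2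
      omega

end Fermat.Agent.S24.Diff
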