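import Mathlib
import Fermat.Prelude.Def_AlgebraicCurve_CanonicalDivisor
import Fermat.Agent.S24.FFRH
import Fermat.Agent.S24.Diff.Local

/-!
# S24, part (A): Riemann–Hurwitz over `P¹`, final form
Owner: helper84.
-/

set_option autoImplicit false

noncomputable section

namespace Fermat.Agent.S24.Diff

open AlgebraicCurve IntermediateField KaehlerDifferential
open Fermat.Agent.S24.FF

variable {K F : Type*} [Field K] [Field F] [Algebra K F]

theorem exists_irreducible_dCoord (v : Place K F) :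
    ∃ π : v.toValuationSubring, Irreducible π ∧ v.dCoord = D K F (π : F) :=
  ⟨_, (IsDiscreteValuationRing.exists_irreducible v.toValuationSubring).choose_spec, rfl⟩

variable [IsAlgClosed K] [CharZero K]

theorem dCoordGenerates [IsFF1 K F] (v : Place K F) : v.DCoordGenerates := by
  obtain ⟨π, hπ, hd⟩ := exists_irreducible_dCoord v
  have hord : v.ord (π : F) = 1 := v.ord_coe_irreducible hπ
  have htr : Transcendental K (π : F) := transcendental_of_ord_ne_zero v (by omega)
  have : FiniteDimensional K⟮(π : F)⟯ F := IsFF1.finite _ htr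
  exact ⟨by rw [hd]; exact span_D _ htr⟩

theorem dCoord_ne_zero [IsFF1 K F] (v : Place K F) : v.dCoord ≠ 0 := by
  obtain ⟨π, hπ, hd⟩ := exists_irreducible_dCoord v
  have hord : v.ord (π : F) = 1 := v.ord_coe_irreducible hπ
  have htr : Transcendental K (π : F) := transcendental_of_ord_ne_zero v (by omega)
  have : FiniteDimensional K⟮(π : F)⟯ F := IsFF1.finite _ htr
  rw [hd]; exact D_ne_zero _ htr

omit [IsAlgClosed K] in
theorem nontrivial_kaehler (x : F) (hx : Transcendental K x) [FiniteDimensional K⟮x⟯ F] :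
    Nontrivial Ω[F⁄K] := ⟨⟨_, _, D_ne_zero x hx⟩⟩

theorem ordDifferential_D [IsFF1 K F] (v : Place K F) {y : F} (hy : v.ord y ≠ 0) :
    v.ordDifferential (D K F y) = v.ord y - 1 := by
  obtain ⟨π, hπ, hd⟩ := exists_irreducible_dCoord v
  obtain ⟨f, hf, -, hord⟩ := exists_D_eq_smul_of_ord_ne_zero v hπ hy
  have := dCoordGenerates v
  have : Nontrivial Ω[F⁄K] := ⟨⟨_, _, dCoord_ne_zero v⟩⟩
  rw [Place.ordDifferential, v.differentialCoeff_unique (f := f) (by rw [hd]; exact hf), hord]

theorem ordDifferential_smul [IsFF1 K F] (v : Place K F) {f : F} {ω : Ω[F⁄K]} (hf : f ≠ 0)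
    (hω : ω ≠ 0) : v.ordDifferential (f • ω) = v.ord f + v.ordDifferential ω := by
  have := dCoordGenerates v
  have : Nontrivial Ω[F⁄K] := ⟨⟨_, _, dCoord_ne_zero v⟩⟩
  refine v.ordDifferential_smul hf ?_
  intro h0
  apply hω
  rw [← v.differentialCoeff_smul_dCoord ω, h0, zero_smul]

theorem diffData (x : F) (hx : Transcendental K x) [FiniteDimensional K⟮x⟯ F] :
    DiffData K F x := by
  have : IsFF1 K F := IsFF1.of_exists x
  refine ⟨fun v y hy => ordDifferential_D v hy, fun v f ω hf hω => ordDifferential_smul v hf hω,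
    fun ω => ?_, D_ne_zero x hx⟩
  have hω : ω ∈ Submodule.span F {D K F x} := by rw [span_D x hx]; trivial
  obtain ⟨f, hf⟩ := Submodule.mem_span_singleton.mp hω
  exact ⟨f, hf.symm⟩

/-- **Riemann–Hurwitz over `P¹`, counting form.** -/
theorem degree_eq (x : F) (hx : Transcendental K x) [FiniteDimensional K⟮x⟯ F] (S : Finset K)
    (hS : ∀ c ∉ S, {v : Place K F | 0 < v.ord (x - algebraMap K F c)}.ncard
      = Module.finrank K⟮x⟯ F)
    (ω : Ω[F⁄K]) (hω : ω ≠ 0) (D : Divisor K F) (hD : ∀ v, D v = v.ordDifferential ω) :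
    Divisor.degree D = -2 * (Module.finrank K⟮x⟯ F : ℤ)
      + ∑ c ∈ S, ((Module.finrank K⟮x⟯ F : ℤ)
          - ({v : Place K F | 0 < v.ord (x - algebraMap K F c)}.ncard : ℤ))
      + ((Module.finrank K⟮x⟯ F : ℤ) - ({v : Place K F | v.ord x < 0}.ncard : ℤ)) :=
  degree_eq_of_diffData x hx (diffData x hx) S hS ω hω D hD

end Fermat.Agent.S24.Diff
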